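/-
Norm formula for the integral closure of a discrete valuation ring (abstract core).

`A` a DVR with fraction field `F` of characteristic zero, `F'/F` finite, `B` the integral closure
of `A` in `F'` (a Dedekind domain).  For `b ∈ B`, `b ≠ 0`:
  `ord_p (N_{F'/F} b) = ∑_P f(P | p) · ord_P b`.
-/
import Mathlib

set_option autoImplicit false
set_option linter.unusedSectionVars false

namespace Fermat.Agent.Lib.FFNorm

open IsDedekindDomain WithZero

section Abstract

variable (A F B F' : Type*) [CommRing A] [IsDomain A] [IsDiscreteValuationRing A]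
  [Field F] [Algebra A F] [IsFractionRing A F]
  [Field F'] [Algebra F F'] [Algebra A F'] [IsScalarTower A F F']
  [CommRing B] [IsDedekindDomain B] [Algebra A B] [Algebra B F'] [IsScalarTower A B F']
  [IsIntegralClosure B A F'] [FiniteDimensional F F'] [CharZero F] [IsFractionRing B F']

include F F' in
theorem algebraMap_injective_core : Function.Injective (algebraMap A B) := by
  have h : Function.Injective (algebraMap A F') := by
    rw [IsScalarTower.algebraMap_eq A F F']
    exact (algebraMap F F').injective.comp (IsFractionRing.injective A F)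
  rw [IsScalarTower.algebraMap_eq A B F'] at h
  exact Function.Injective.of_comp h

include F F' in
theorem isTorsionFree_core : Module.IsTorsionFree A B := by
  have : FaithfulSMul A B :=
    (faithfulSMul_iff_algebraMap_injective A B).mpr (algebraMap_injective_core A F B F')
  infer_instance

include F' in
/-- Every height-one prime of `B` lies over the maximal ideal of the DVR `A`. -/
theorem liesOver_maximalIdeal (P : HeightOneSpectrum B) :
    P.asIdeal.LiesOver (IsLocalRing.maximalIdeal A) := by
  have : Algebra.IsIntegral A B := IsIntegralClosure.isIntegral_algebra A F'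
  rw [Ideal.liesOver_iff]
  symm
  apply IsLocalRing.eq_maximalIdeal
  have hprime : (Ideal.under A P.asIdeal).IsPrime := Ideal.comap_isPrime _ _
  refine hprime.isMaximal ?_
  intro hbot
  exact P.ne_bot (Ideal.eq_bot_of_comap_eq_bot hbot)

/-- The `P`-adic valuation of an element of `B`, via the factorisation count. -/
theorem neg_log_valuation_eq_count (P : HeightOneSpectrum B) (b : B) (hb : b ≠ 0) :
    -log (P.valuation F' (algebraMap B F' b)) =
      ((Associates.mk P.asIdeal).count (Associates.mk (Ideal.span {b})).factors : ℤ) := by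
  rw [HeightOneSpectrum.valuation_of_algebraMap, HeightOneSpectrum.intValuation_def, if_neg hb,
    log_exp, neg_neg]

/-- Valuation at the maximal ideal of an element generating a power of the maximal ideal. -/
theorem neg_log_valuation_of_span_eq_pow (x : A) (m : ℕ)
    (hx : Ideal.span {x} = (IsLocalRing.maximalIdeal A) ^ m) :
    -log ((IsDiscreteValuationRing.maximalIdeal A).valuation F (algebraMap A F x)) = (m : ℤ) := by
  classical
  set p := IsDiscreteValuationRing.maximalIdeal A with hp
  have hpA : p.asIdeal = IsLocalRing.maximalIdeal A := rfl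
  have hx0 : x ≠ 0 := by
    rintro rfl
    have h0 : (IsLocalRing.maximalIdeal A) ^ m = 0 := by
      rw [← hx, Ideal.zero_eq_bot, Ideal.span_singleton_eq_bot]
    exact p.ne_bot (eq_zero_of_pow_eq_zero h0)
  rw [HeightOneSpectrum.valuation_of_algebraMap, HeightOneSpectrum.intValuation_def, if_neg hx0,
    log_exp, neg_neg, hx, ← hpA, Associates.mk_pow,
    Associates.count_pow (Associates.mk_ne_zero.mpr p.ne_bot) p.associates_irreducible,
    Associates.count_self p.associates_irreducible, mul_one]

/-- **Norm formula** for the integral closure `B` of a DVR `A`: for `b ∈ B` nonzero,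
`ord_p (N b) = ∑_P f(P|p) · ord_P b`. -/
theorem neg_log_valuation_norm (b : B) (hb : b ≠ 0) :
    -log ((IsDiscreteValuationRing.maximalIdeal A).valuation F
        (Algebra.norm F (algebraMap B F' b))) =
      ∑ᶠ P : HeightOneSpectrum B,
        ((P.asIdeal.inertiaDeg A : ℕ) : ℤ) * -log (P.valuation F' (algebraMap B F' b)) := by
  classical
  have hsep : Algebra.IsSeparable F F' := inferInstance
  have hfin : Module.Finite A B := IsIntegralClosure.finite A F F' B
  have htf : Module.IsTorsionFree A B := isTorsionFree_core A F B F'
  have hint : Algebra.IsIntegral A B := IsIntegralClosure.isIntegral_algebra A F'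
  have hcA : CharZero A := RingHom.charZero (algebraMap A F)
  have hperf : PerfectField (FractionRing A) := inferInstance
  set I : Ideal B := Ideal.span {b} with hI
  have hI0 : I ≠ 0 := by
    rw [hI, Ideal.zero_eq_bot, Ne, Ideal.span_singleton_eq_bot]; exact hb
  set c : HeightOneSpectrum B → ℕ := fun P =>
    (Associates.mk P.asIdeal).count (Associates.mk I).factors with hc
  have hmax : ∀ P : HeightOneSpectrum B, P.maxPowDividing I = P.asIdeal ^ c P := fun P => rfl
  have h1 : Ideal.relNorm A I = Ideal.span {Algebra.intNorm A B b} :=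
    Ideal.relNorm_singleton A b
  have h2 : ∏ᶠ P : HeightOneSpectrum B, P.maxPowDividing I = I :=
    Ideal.finprod_heightOneSpectrum_factorization hI0
  have hsupp := Ideal.hasFiniteMulSupport (I := I) hI0
  have hsupp' : (Function.mulSupport fun P : HeightOneSpectrum B => P.maxPowDividing I).Finite :=
    hsupp
  set s : Finset (HeightOneSpectrum B) := hsupp'.toFinset with hs
  have hout : ∀ P : HeightOneSpectrum B, P ∉ s → c P = 0 := by
    intro P hP
    have h1' : P.maxPowDividing I = 1 := by
      by_contra hne
      exact hP (by rw [hs, Set.Finite.mem_toFinset]; exact hne)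
    rw [hmax, Ideal.one_eq_top, Ideal.pow_eq_top_iff] at h1'
    rcases h1' with h | h
    · exact absurd h P.isPrime.ne_top
    · exact h
  have h4 : ∀ P : HeightOneSpectrum B, Ideal.relNorm A (P.maxPowDividing I) =
      (IsLocalRing.maximalIdeal A) ^ (P.asIdeal.inertiaDeg A * c P) := by
    intro P
    have := liesOver_maximalIdeal A B F' P
    have := P.isMaximal
    rw [hmax, map_pow,
      Ideal.relNorm_eq_pow_of_isMaximal P.asIdeal (IsLocalRing.maximalIdeal A), ← pow_mul]
  have h3 : Ideal.relNorm A I =
      (IsLocalRing.maximalIdeal A) ^ (∑ P ∈ s, P.asIdeal.inertiaDeg A * c P) := by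
    conv_lhs => rw [← h2]
    rw [map_finprod (Ideal.relNorm A) hsupp,
      finprod_eq_prod_of_mulSupport_subset (s := s), ← Finset.prod_pow_eq_pow_sum]
    · exact Finset.prod_congr rfl fun P _ => h4 P
    · intro P hP
      rw [Function.mem_mulSupport] at hP
      by_contra hPs
      apply hP
      rw [h4, hout P hPs, mul_zero, pow_zero]
  have h5 : Ideal.span {Algebra.intNorm A B b} =
      (IsLocalRing.maximalIdeal A) ^ (∑ P ∈ s, P.asIdeal.inertiaDeg A * c P) := by
    rw [← h1, h3]
  have h6 := neg_log_valuation_of_span_eq_pow A F _ _ h5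
  rw [Algebra.algebraMap_intNorm (K := F) (L := F')] at h6
  rw [h6, finsum_eq_sum_of_support_subset (s := s)]
  · push_cast
    refine Finset.sum_congr rfl fun P _ => ?_
    rw [neg_log_valuation_eq_count B F' P b hb]
  · intro P hP
    rw [Function.mem_support] at hP
    by_contra hPs
    apply hP
    rw [neg_log_valuation_eq_count B F' P b hb]
    have := hout P hPs
    simp only [hc] at this
    rw [this]
    simp

end Abstract

/-- Over an algebraically closed constant field mapping onto the residue field of the local
ring `A`, all inertia degrees are `1`. -/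
theorem inertiaDeg_eq_one_of_residue {K A B : Type*} [Field K] [IsAlgClosed K] [CommRing A]
    [IsLocalRing A] [Algebra K A] [CommRing B] [Algebra A B] [Module.Finite A B]
    (hres : ∀ a : A, ∃ c : K, a - algebraMap K A c ∈ IsLocalRing.maximalIdeal A)
    (P : Ideal B) [P.IsMaximal] [P.LiesOver (IsLocalRing.maximalIdeal A)] :
    P.inertiaDeg A = 1 := by
  rw [Ideal.inertiaDeg_eq_of_isMaximal (IsLocalRing.maximalIdeal A) P]
  set p := IsLocalRing.maximalIdeal A with hp
  let φ : K →+* A ⧸ p := (Ideal.Quotient.mk p).comp (algebraMap K A)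
  have hφ : Function.Surjective φ := by
    intro x
    obtain ⟨a, rfl⟩ := Ideal.Quotient.mk_surjective x
    obtain ⟨c, hc⟩ := hres a
    refine ⟨c, ?_⟩
    show Ideal.Quotient.mk p (algebraMap K A c) = Ideal.Quotient.mk p a
    rw [eq_comm, Ideal.Quotient.eq]
    exact hc
  let ψ : K →+* B ⧸ P := (algebraMap (A ⧸ p) (B ⧸ P)).comp φ
  have hint : ψ.IsIntegral := by
    apply RingHom.IsIntegral.trans
    · exact φ.isIntegral_of_surjective hφ
    · exact algebraMap_isIntegral_iff.mpr inferInstance
  have hψ : Function.Bijective ψ := IsAlgClosed.ringHom_bijective_of_isIntegral ψ hint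
  have hbij : Function.Bijective (algebraMap (A ⧸ p) (B ⧸ P)) := by
    constructor
    · intro x y hxy
      obtain ⟨a, rfl⟩ := hφ x
      obtain ⟨b, rfl⟩ := hφ y
      have : ψ a = ψ b := hxy
      rw [hψ.1 this]
    · intro y
      obtain ⟨a, rfl⟩ := hψ.2 y
      exact ⟨φ a, rfl⟩
  have e : (A ⧸ p) ≃ₗ[A ⧸ p] (B ⧸ P) :=
    LinearEquiv.ofBijective (Algebra.linearMap (A ⧸ p) (B ⧸ P)) hbij
  rw [← e.finrank_eq, Module.finrank_self]

end Fermat.Agent.Lib.FFNorm
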