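/-
Places of a finite extension `F'/F` of function fields lying over a place `v` of `F`
correspond to the height-one primes of the integral closure of `O_v` in `F'`.
Consequences (in the Prelude `Place` framework): the norm formula
  `v.ord (N_{F'/F} f) = ∑_{w | v} w.ord f`
and the fundamental identity `∑_{w | v} e_w = [F' : F]` (algebraically closed constants).
-/
import Mathlib
import Fermat.Prelude.Def_AlgebraicCurve_DivisorPushPull
import Fermat.Agent.S24.FF.Dedekind
import Fermat.Agent.S24.FF.Principal
import Fermat.Agent.Lib.FFNorm.Core

set_option autoImplicit false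
set_option linter.unusedSectionVars false

namespace Fermat.Agent.Lib.FFNorm

open AlgebraicCurve IsDedekindDomain WithZero

variable {K F F' : Type*} [Field K] [Field F] [Field F'] [Algebra K F] [Algebra K F']
  [Algebra F F'] [IsScalarTower K F F']

/-- The scalar tower `K → O_v → F'`. -/
theorem isScalarTower_val (v : Place K F) : IsScalarTower K v.toValuationSubring F' :=
  IsScalarTower.of_algebraMap_eq fun k => by
    show algebraMap K F' k =
      algebraMap F F' ((algebraMap K v.toValuationSubring k : v.toValuationSubring) : F)
    rw [v.coe_algebraMap, ← IsScalarTower.algebraMap_apply]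

attribute [local instance] isScalarTower_val

variable [FiniteDimensional F F'] [CharZero F]

/-- The integral closure of `O_v` in `F'`. -/
abbrev intClosure (v : Place K F) : Subalgebra v.toValuationSubring F' :=
  integralClosure v.toValuationSubring F'

theorem isDedekindDomain_intClosure (v : Place K F) :
    IsDedekindDomain (intClosure (F' := F') v) :=
  integralClosure.isDedekindDomain v.toValuationSubring F F'

attribute [local instance] isDedekindDomain_intClosure

theorem isFractionRing_intClosure (v : Place K F) :
    IsFractionRing (intClosure (F' := F') v) F' :=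
  integralClosure.isFractionRing_of_finite_extension F F'

attribute [local instance] isFractionRing_intClosure

example (v : Place K F) : Algebra K (intClosure (F' := F') v) := inferInstance
example (v : Place K F) : IsScalarTower K (intClosure (F' := F') v) F' := inferInstance

/-- The place of `F'` attached to a height-one prime of the integral closure of `O_v`. -/
noncomputable def placeOver (v : Place K F) (P : HeightOneSpectrum (intClosure (F' := F') v)) :
    Place K F' :=
  Place.ofHeightOneSpectrum (K := K) (F := F') P

theorem placeOver_toValuationSubring (v : Place K F)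
    (P : HeightOneSpectrum (intClosure (F' := F') v)) :
    (placeOver v P).toValuationSubring = (P.valuation F').valuationSubring := rfl

/-- The place attached to a height-one prime of the integral closure of `O_v` lies over `v`. -/
theorem restrict_placeOver (v : Place K F) (P : HeightOneSpectrum (intClosure (F' := F') v)) :
    (placeOver v P).restrict F = v := by
  apply Place.ext
  symm
  apply ValuationSubring.eq_of_le_of_ne_top
  · intro a ha
    rw [Place.restrict_toValuationSubring, ValuationSubring.mem_comap,
      placeOver_toValuationSubring, Valuation.mem_valuationSubring_iff]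
    have h1 : algebraMap F F' a = algebraMap (intClosure (F' := F') v) F'
        (algebraMap v.toValuationSubring (intClosure (F' := F') v) ⟨a, ha⟩) := rfl
    rw [h1]
    exact P.valuation_le_one _
  · exact ((placeOver v P).restrict F).ne_top'

/-- Every place of `F'` over `v` comes from a height-one prime of the integral closure. -/
theorem exists_placeOver_eq (v : Place K F) (w : Place K F') (hw : w.restrict F = v) :
    ∃ P : HeightOneSpectrum (intClosure (F' := F') v), placeOver v P = w := by
  have hA : ∀ a : v.toValuationSubring,
      algebraMap v.toValuationSubring F' a ∈ w.toValuationSubring := by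
    intro a
    have h : (a : F) ∈ (w.restrict F).toValuationSubring := by
      rw [hw]; exact a.2
    rw [Place.restrict_toValuationSubring, ValuationSubring.mem_comap] at h
    exact h
  have hB : ∀ r : intClosure (F' := F') v,
      algebraMap (intClosure (F' := F') v) F' r ∈ w.toValuationSubring := fun r =>
    Fermat.Agent.S24.FF.mem_of_isIntegral w hA r.2
  exact Fermat.Agent.S24.FF.exists_ofHeightOneSpectrum_eq w hB

theorem placeOver_injective (v : Place K F) :
    Function.Injective (placeOver (K := K) (F' := F') v) :=
  Fermat.Agent.S24.FF.ofHeightOneSpectrum_injective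

theorem range_placeOver (v : Place K F) :
    Set.range (placeOver (K := K) (F' := F') v) = {w : Place K F' | w.restrict F = v} := by
  ext w
  constructor
  · rintro ⟨P, rfl⟩
    exact restrict_placeOver v P
  · intro hw
    exact exists_placeOver_eq v w hw

theorem ord_placeOver (v : Place K F) (P : HeightOneSpectrum (intClosure (F' := F') v))
    {f : F'} (hf : f ≠ 0) : (placeOver v P).ord f = -log (P.valuation F' f) :=
  Fermat.Agent.S24.FF.ord_ofHeightOneSpectrum (K := K) P hf

/-- Norm formula for integral elements, with Mathlib's inertia degrees. -/
theorem ord_norm_of_mem_intClosure (v : Place K F) (b : intClosure (F' := F') v) (hb : b ≠ 0) :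
    v.ord (Algebra.norm F (b : F')) =
      ∑ᶠ P : HeightOneSpectrum (intClosure (F' := F') v),
        ((P.asIdeal.inertiaDeg v.toValuationSubring : ℕ) : ℤ) * (placeOver v P).ord (b : F') := by
  have hb' : (b : F') ≠ 0 := by
    simpa using hb
  have h := neg_log_valuation_norm v.toValuationSubring F (intClosure (F' := F') v) F' b hb
  have h1 : v.ord (Algebra.norm F (b : F')) =
      -log ((IsDiscreteValuationRing.maximalIdeal v.toValuationSubring).valuation F
        (Algebra.norm F (algebraMap (intClosure (F' := F') v) F' b))) := rfl
  rw [h1, h]
  refine finsum_congr fun P => ?_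
  rw [ord_placeOver v P hb']
  rfl

section AlgClosed

variable [IsAlgClosed K]

/-- Norm formula for integral elements, algebraically closed constants. -/
theorem ord_norm_of_mem_intClosure' (v : Place K F)
    (hres : ∀ a : v.toValuationSubring, ∃ c : K,
      a - algebraMap K v.toValuationSubring c ∈ IsLocalRing.maximalIdeal v.toValuationSubring)
    (b : intClosure (F' := F') v) (hb : b ≠ 0) :
    v.ord (Algebra.norm F (b : F')) =
      ∑ᶠ P : HeightOneSpectrum (intClosure (F' := F') v), (placeOver v P).ord (b : F') := by
  rw [ord_norm_of_mem_intClosure v b hb]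
  refine finsum_congr fun P => ?_
  have hfin : Module.Finite v.toValuationSubring (intClosure (F' := F') v) :=
    IsIntegralClosure.finite v.toValuationSubring F F' _
  have hmax := P.isMaximal
  have hlies := liesOver_maximalIdeal v.toValuationSubring (intClosure (F' := F') v) F' P
  rw [inertiaDeg_eq_one_of_residue hres P.asIdeal]
  simp

variable [HasPrincipalDivisors K F']

theorem finite_heightOneSpectrum_intClosure (v : Place K F) :
    Finite (HeightOneSpectrum (intClosure (F' := F') v)) := by
  have hfin : Finite {w : Place K F' // w.restrict F = v} :=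
    (Place.restrict_fiber_finite v).to_subtype
  exact Finite.of_injective
    (fun P => (⟨placeOver v P, restrict_placeOver v P⟩ : {w : Place K F' // w.restrict F = v}))
    (fun P Q h => placeOver_injective v (congrArg Subtype.val h))

/-- Norm formula, as a sum over the height-one primes of the integral closure. -/
theorem ord_norm_eq_finsum (v : Place K F)
    (hres : ∀ a : v.toValuationSubring, ∃ c : K,
      a - algebraMap K v.toValuationSubring c ∈ IsLocalRing.maximalIdeal v.toValuationSubring)
    (f : F') (hf : f ≠ 0) :
    v.ord (Algebra.norm F f) =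
      ∑ᶠ P : HeightOneSpectrum (intClosure (F' := F') v), (placeOver v P).ord f := by
  have hfinite := finite_heightOneSpectrum_intClosure (F' := F') v
  obtain ⟨a, b, hb, rfl⟩ := IsFractionRing.div_surjective (A := intClosure (F' := F') v) f
  have hb0 : b ≠ 0 := nonZeroDivisors.ne_zero hb
  have hb0' : algebraMap (intClosure (F' := F') v) F' b ≠ 0 := by
    simpa using hb0
  have ha0' : algebraMap (intClosure (F' := F') v) F' a ≠ 0 := by
    intro h
    rw [h, zero_div] at hf
    exact hf rfl
  have ha0 : a ≠ 0 := by
    rintro rfl
    exact ha0' (map_zero _)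
  have hNa : Algebra.norm F (algebraMap (intClosure (F' := F') v) F' a) ≠ 0 :=
    Algebra.norm_ne_zero_iff.mpr ha0'
  have hNb : Algebra.norm F (algebraMap (intClosure (F' := F') v) F' b) ≠ 0 :=
    Algebra.norm_ne_zero_iff.mpr hb0'
  have hdiv : Algebra.norm F (algebraMap (intClosure (F' := F') v) F' a /
      algebraMap (intClosure (F' := F') v) F' b) *
      Algebra.norm F (algebraMap (intClosure (F' := F') v) F' b) =
      Algebra.norm F (algebraMap (intClosure (F' := F') v) F' a) := by
    rw [← map_mul, div_mul_cancel₀ _ hb0']
  have hNab : Algebra.norm F (algebraMap (intClosure (F' := F') v) F' a /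
      algebraMap (intClosure (F' := F') v) F' b) ≠ 0 := Algebra.norm_ne_zero_iff.mpr hf
  have hord := congrArg v.ord hdiv
  rw [v.ord_mul hNab hNb] at hord
  have h1 := ord_norm_of_mem_intClosure' v hres a ha0
  have h2 := ord_norm_of_mem_intClosure' v hres b hb0
  have e1 : ((a : intClosure (F' := F') v) : F') = algebraMap (intClosure (F' := F') v) F' a := rfl
  have e2 : ((b : intClosure (F' := F') v) : F') = algebraMap (intClosure (F' := F') v) F' b := rfl
  rw [e1] at h1
  rw [e2] at h2
  rw [eq_sub_of_add_eq hord, h1, h2, ← finsum_sub_distrib (Set.toFinite _) (Set.toFinite _)]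
  refine finsum_congr fun P => ?_
  rw [div_eq_mul_inv, (placeOver v P).ord_mul ha0' (inv_ne_zero hb0'), (placeOver v P).ord_inv]
  ring

/-- **Norm formula**: `ord_v (N_{F'/F} f) = ∑_{w | v} ord_w f`. -/
theorem ord_norm_eq_sum_fiber (v : Place K F)
    (hres : ∀ a : v.toValuationSubring, ∃ c : K,
      a - algebraMap K v.toValuationSubring c ∈ IsLocalRing.maximalIdeal v.toValuationSubring)
    (f : F') (hf : f ≠ 0) :
    v.ord (Algebra.norm F f) = ∑ w ∈ v.fiber F', w.ord f := by
  have hset : (↑(v.fiber F') : Set (Place K F')) = Set.range (placeOver (K := K) (F' := F') v) := by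
    rw [range_placeOver]
    ext w'
    simp [Place.mem_fiber]
  rw [ord_norm_eq_finsum v hres f hf, ← finsum_mem_coe_finset, hset,
    finsum_mem_range (placeOver_injective v)]

theorem inertiaDeg_eq_one (htr' : Algebra.trdeg K F' = 1) (w : Place K F') :
    w.inertiaDeg F = 1 := by
  have h := w.deg_restrict_mul_inertiaDeg (F := F)
  rw [Fermat.Agent.S24.FF.deg_eq_one htr' w] at h
  exact Nat.eq_one_of_mul_eq_one_left h

/-- **Norm formula** in the Prelude form: the push-forward of a principal divisor is the divisor
of the norm. -/
theorem pushforwardNormFormula (htr : Algebra.trdeg K F = 1) (htr' : Algebra.trdeg K F' = 1) :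
    Divisor.PushforwardNormFormula K F F' := by
  intro f hf D hD v
  classical
  rw [Divisor.pushforward_apply,
    ord_norm_eq_sum_fiber v (fun a => Fermat.Agent.S24.FF.exists_residue_sub_mem htr v a) f hf]
  have h1 : ∑ w ∈ D.support, (if w.restrict F = v then D w * (w.inertiaDeg F : ℤ) else 0) =
      ∑ w ∈ D.support.filter (fun w => w.restrict F = v), w.ord f := by
    rw [Finset.sum_filter]
    refine Finset.sum_congr rfl fun w _ => ?_
    split_ifs
    · rw [inertiaDeg_eq_one htr' w, hD]; simp
    · rfl
  rw [h1]
  apply Finset.sum_subset
  · intro w hw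
    rw [Finset.mem_filter] at hw
    exact Place.mem_fiber.mpr hw.2
  · intro w hw hnot
    rw [Finset.mem_filter, not_and_or] at hnot
    rcases hnot with h | h
    · rw [Finsupp.mem_support_iff, not_not] at h
      rw [← hD, h]
    · exact absurd (Place.mem_fiber.mp hw) h

/-- **Fundamental identity** `∑_{w | v} e_w f_w = [F' : F]` in the Prelude form. -/
theorem sumRamificationInertia (htr : Algebra.trdeg K F = 1) (htr' : Algebra.trdeg K F' = 1) :
    SumRamificationInertia K F F' := by
  refine ⟨fun v => ?_⟩
  obtain ⟨π, hπ⟩ := IsDiscreteValuationRing.exists_irreducible v.toValuationSubring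
  have hπ1 : v.ord (π : F) = 1 := v.ord_coe_irreducible hπ
  have hπ0 : (π : F) ≠ 0 := by
    simpa [ne_eq, ZeroMemClass.coe_eq_zero] using hπ.ne_zero
  have hπ0' : algebraMap F F' (π : F) ≠ 0 := by simpa using hπ0
  have h := ord_norm_eq_sum_fiber v
    (fun a => Fermat.Agent.S24.FF.exists_residue_sub_mem htr v a) (algebraMap F F' (π : F)) hπ0'
  rw [Algebra.norm_algebraMap, ← zpow_natCast, v.ord_zpow, hπ1, mul_one] at h
  rw [h]
  refine Finset.sum_congr rfl fun w hw => ?_
  rw [w.ord_restrict, Place.mem_fiber.mp hw, hπ1, inertiaDeg_eq_one htr' w, Nat.cast_one]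

end AlgClosed

end Fermat.Agent.Lib.FFNorm
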