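/-
Finiteness, fundamental identity and norm formula *along* a `K`-algebra homomorphism
`φ : F →ₐ[K] F'` of function fields of curves over an algebraically closed field of
characteristic zero (the Prelude `…Along` predicates used by correspondences).
-/
import Mathlib
import Fermat.Prelude.Def_AlgebraicCurve_Correspondence
import Fermat.Agent.Lib.FFNorm.Places

set_option autoImplicit false
set_option linter.unusedSectionVars false
set_option linter.style.haveILetI false

namespace Fermat.Agent.Lib.FFNorm

open AlgebraicCurve

section Generic

variable {K F F' : Type*} [Field K] [Field F] [Field F'] [Algebra K F] [Algebra K F']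
  [Algebra F F'] [IsScalarTower K F F']

/-- An extension of function fields of transcendence degree one is algebraic. -/
theorem isAlgebraic_of_trdeg (htr : Algebra.trdeg K F = 1) (htr' : Algebra.trdeg K F' = 1) :
    Algebra.IsAlgebraic F F' := by
  rw [← trdeg_eq_zero_iff]
  have h := lift_trdeg_add_eq K F F'
  rw [htr, htr', Cardinal.lift_one, Cardinal.lift_one] at h
  have h' : (1 : Cardinal) + Cardinal.lift (Algebra.trdeg F F') = 1 + 0 := by
    rw [add_zero]; exact h
  have h0 := Cardinal.eq_of_add_eq_add_left h' Cardinal.one_lt_aleph0
  exact Cardinal.lift_eq_zero.mp h0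

/-- An extension of function fields of transcendence degree one is finite. -/
theorem finite_of_trdeg [Algebra.EssFiniteType K F'] (htr : Algebra.trdeg K F = 1)
    (htr' : Algebra.trdeg K F' = 1) : Module.Finite F F' := by
  have := isAlgebraic_of_trdeg htr htr'
  have : Algebra.EssFiniteType F F' := Algebra.EssFiniteType.of_comp K F F'
  exact Algebra.finite_of_essFiniteType_of_isAlgebraic

/-- Function fields of curves over an algebraically closed field of characteristic zero have
principal divisors (of degree zero). -/
theorem hasPrincipalDivisors [IsAlgClosed K] [CharZero K] [Algebra.EssFiniteType K F]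
    (htr : Algebra.trdeg K F = 1) : HasPrincipalDivisors K F :=
  ⟨fun f hf => by
    obtain ⟨D, hD⟩ := Fermat.Agent.S24.FF.exists_divisor_ord htr hf
    exact ⟨D, hD, Fermat.Agent.S24.FF.degree_eq_zero_of_ord htr hf D hD⟩⟩

end Generic

section Along

variable {K F F' : Type*} [Field K] [Field F] [Field F'] [Algebra K F] [Algebra K F']
  [IsAlgClosed K] [CharZero K] [Algebra.EssFiniteType K F']

theorem finiteAlong (φ : F →ₐ[K] F') (htr : Algebra.trdeg K F = 1)
    (htr' : Algebra.trdeg K F' = 1) : FiniteAlong K φ := by
  letI := algebraAlong φ
  haveI := isScalarTower_along φ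
  exact finite_of_trdeg htr htr'

theorem isIntegral_toRingHom (φ : F →ₐ[K] F') (htr : Algebra.trdeg K F = 1)
    (htr' : Algebra.trdeg K F' = 1) : φ.toRingHom.IsIntegral := by
  letI := algebraAlong φ
  haveI := isScalarTower_along φ
  haveI : Module.Finite F F' := finite_of_trdeg htr htr'
  have h : Algebra.IsIntegral F F' := inferInstance
  exact algebraMap_isIntegral_iff.mpr h

theorem fundamentalIdentityAlong [HasPrincipalDivisors K F'] (φ : F →ₐ[K] F')
    (hφ : φ.toRingHom.IsIntegral) (htr : Algebra.trdeg K F = 1)
    (htr' : Algebra.trdeg K F' = 1) : FundamentalIdentityAlong K φ hφ := by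
  letI := algebraAlong φ
  haveI := isScalarTower_along φ
  haveI := isIntegral_along φ hφ
  haveI : Module.Finite F F' := finite_of_trdeg htr htr'
  haveI : CharZero F := charZero_of_injective_algebraMap (algebraMap K F).injective
  haveI : SumRamificationInertia K F F' := sumRamificationInertia htr htr'
  show FundamentalIdentity K F F'
  infer_instance

theorem normFormulaAlong [HasPrincipalDivisors K F'] (φ : F →ₐ[K] F')
    (hfin : FiniteAlong K φ) (htr : Algebra.trdeg K F = 1)
    (htr' : Algebra.trdeg K F' = 1) : NormFormulaAlong K φ hfin := by
  letI := algebraAlong φ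
  haveI := isScalarTower_along φ
  haveI : Module.Finite F F' := hfin
  haveI : CharZero F := charZero_of_injective_algebraMap (algebraMap K F).injective
  show Divisor.PushforwardNormFormula K F F'
  exact pushforwardNormFormula htr htr'

end Along

end Fermat.Agent.Lib.FFNorm
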