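/-
Value formula for the norm, abstract core (Mathlib only).

* `det_of_flag` : determinant of an endomorphism acting by scalars on the graded pieces of a flag.
* `norm_quotient_mk` : the norm of a finite free algebra over a local ring commutes with
  reduction modulo the maximal ideal.
* `quotient_mk_norm_eq_finprod` : `A` local, `B` a Dedekind domain finite free over `A` with all
  residue degrees one; if `y ≡ c_P mod P` for all primes `P ∣ 𝔪 B` then
  `N(y) ≡ ∏_P c_P ^ e_P mod 𝔪`.
-/
import Mathlib

set_option autoImplicit false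

namespace Fermat.Agent.Lib.FFNorm

universe u

/-- Determinant of an endomorphism preserving a flag on whose graded pieces it acts by scalars. -/
theorem det_of_flag {k : Type*} [Field k] (n : ℕ) :
    ∀ (V : Type u) [AddCommGroup V] [Module k V] [FiniteDimensional k V] (f : V →ₗ[k] V)
      (W : ℕ → Submodule k V) (c : ℕ → k), W 0 = ⊤ → W n = ⊥ →
      (∀ l, l < n → W (l + 1) ≤ W l) →
      (∀ l, l < n → ∀ x ∈ W l, f x - c l • x ∈ W (l + 1)) →
      LinearMap.det f = ∏ l ∈ Finset.range n,
        c l ^ (Module.finrank k (W l) - Module.finrank k (W (l + 1))) := by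
  induction n with
  | zero =>
    intro V _ _ _ f W c h0 hn _ _
    have htb : (⊤ : Submodule k V) = ⊥ := by rw [← h0, hn]
    have hsub : Subsingleton V := by
      refine ⟨fun a b => ?_⟩
      have ha : a ∈ (⊤ : Submodule k V) := Submodule.mem_top
      have hb : b ∈ (⊤ : Submodule k V) := Submodule.mem_top
      rw [htb, Submodule.mem_bot] at ha hb
      rw [ha, hb]
    rw [Finset.prod_range_zero]
    exact LinearMap.det_eq_one_of_subsingleton f
  | succ n ih =>
    intro V _ _ _ f W c h0 hn hanti hf
    -- the chain is below `W 1`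
    have hle : ∀ l, l ≤ n → W (l + 1) ≤ W 1 := by
      intro l hl
      induction l with
      | zero => exact le_rfl
      | succ l ihl => exact (hanti (l + 1) (by omega)).trans (ihl (by omega))
    have hstab : W 1 ≤ (W 1).comap f := by
      intro x hx
      rw [Submodule.mem_comap]
      rcases Nat.eq_zero_or_pos n with hn0 | hn0
      · subst hn0
        rw [hn, Submodule.mem_bot] at hx
        rw [hx, map_zero]
        exact Submodule.zero_mem _
      · have h1 := hf 1 (by omega) x hx
        have h2 : f x = (f x - c 1 • x) + c 1 • x := by abel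
        rw [h2]
        exact Submodule.add_mem _ (hanti 1 (by omega) h1) (Submodule.smul_mem _ _ hx)
    have hdet := LinearMap.det_eq_det_mul_det (W 1) f hstab
    -- the quotient part
    have hq : (W 1).mapQ (W 1) f hstab = c 0 • LinearMap.id := by
      apply Submodule.linearMap_qext
      ext x
      simp only [LinearMap.coe_comp, Function.comp_apply, Submodule.mkQ_apply, Submodule.mapQ_apply,
        LinearMap.smul_apply, LinearMap.id_coe, id_eq]
      rw [← Submodule.Quotient.mk_smul, Submodule.Quotient.eq]
      exact hf 0 (by omega) x (by rw [h0]; exact Submodule.mem_top)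
    have hq' : LinearMap.det ((W 1).mapQ (W 1) f hstab) =
        c 0 ^ (Module.finrank k (W 0) - Module.finrank k (W 1)) := by
      rw [hq, LinearMap.det_smul, LinearMap.det_id, mul_one]
      congr 1
      have h1 := Submodule.finrank_quotient_add_finrank (W 1)
      have h2 : Module.finrank k (W 0) = Module.finrank k V := by
        rw [h0, finrank_top]
      omega
    -- the sub part
    have hsub := ih (W 1) (f.restrict hstab) (fun l => (W (l + 1)).comap (W 1).subtype)
      (fun l => c (l + 1)) (Submodule.comap_subtype_self _)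
      (by rw [hn, Submodule.comap_bot, Submodule.ker_subtype])
      (fun l hl => Submodule.comap_mono (hanti (l + 1) (by omega)))
      (by
        intro l hl x hx
        rw [Submodule.mem_comap] at hx ⊢
        exact hf (l + 1) (by omega) x hx)
    have hfr : ∀ l, l ≤ n → Module.finrank k ((W (l + 1)).comap (W 1).subtype) =
        Module.finrank k (W (l + 1)) := fun l hl =>
      (Submodule.comapSubtypeEquivOfLe (hle l hl)).finrank_eq
    rw [hdet, hsub, hq', Finset.prod_range_succ' (fun l =>
      c l ^ (Module.finrank k (W l) - Module.finrank k (W (l + 1))))]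
    congr 1
    refine Finset.prod_congr rfl fun l hl => ?_
    rw [Finset.mem_range] at hl
    rw [hfr l (by omega), hfr (l + 1) (by omega)]


open IsDedekindDomain UniqueFactorizationMonoid

section Core

variable {A B : Type*} [CommRing A] [IsLocalRing A] [CommRing B] [Algebra A B]
  [Module.Free A B] [Module.Finite A B]

attribute [local instance] Ideal.Quotient.field

/-- The norm commutes with reduction modulo the maximal ideal of a local ring. -/
theorem norm_quotient_mk (y : B) :
    Algebra.norm (A ⧸ IsLocalRing.maximalIdeal A)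
      (Ideal.Quotient.mk (Ideal.map (algebraMap A B) (IsLocalRing.maximalIdeal A)) y) =
      Ideal.Quotient.mk (IsLocalRing.maximalIdeal A) (Algebra.norm A y) := by
  let ι := Module.Free.ChooseBasisIndex A B
  let b : Module.Basis ι A B := Module.Free.chooseBasis A B
  rw [Algebra.norm_eq_matrix_det b, Algebra.norm_eq_matrix_det (IsLocalRing.basisQuotient b),
    RingHom.map_det]
  congr 1
  ext i j
  simp only [Algebra.leftMulMatrix_apply, Algebra.coe_lmul_eq_mul, LinearMap.toMatrix_apply,
    IsLocalRing.basisQuotient_apply, LinearMap.mul_apply', RingHom.mapMatrix_apply,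
    Matrix.map_apply, ← map_mul, IsLocalRing.basisQuotient_repr]

end Core


section Main

variable {A B : Type*} [CommRing A] [IsLocalRing A] [CommRing B] [IsDedekindDomain B]
  [Algebra A B] [Module.Free A B] [Module.Finite A B]

attribute [local instance] Ideal.Quotient.field

open Classical in
/-- **Value formula for the norm, abstract core.**  `A` local, `B` a Dedekind domain, finite free
over `A`, such that the number of prime factors (with multiplicity) of `𝔪 B` is the rank of `B`
(i.e. all residue degrees are one).  If `y ≡ c_P mod P` for every prime `P ∣ 𝔪 B`, then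
`N(y) ≡ ∏_P c_P ^ e_P mod 𝔪`. -/
theorem quotient_mk_norm_eq_finprod
    (hp : Ideal.map (algebraMap A B) (IsLocalRing.maximalIdeal A) ≠ ⊥)
    (hcard : ∑ᶠ P : HeightOneSpectrum B, Multiset.count P.asIdeal
      (normalizedFactors (Ideal.map (algebraMap A B) (IsLocalRing.maximalIdeal A))) =
        Module.finrank A B)
    (y : B) (c : HeightOneSpectrum B → A)
    (hc : ∀ P : HeightOneSpectrum B,
      Ideal.map (algebraMap A B) (IsLocalRing.maximalIdeal A) ≤ P.asIdeal →
        y - algebraMap A B (c P) ∈ P.asIdeal) :
    Ideal.Quotient.mk (IsLocalRing.maximalIdeal A) (Algebra.norm A y) =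
      ∏ᶠ P : HeightOneSpectrum B, Ideal.Quotient.mk (IsLocalRing.maximalIdeal A) (c P) ^
        Multiset.count P.asIdeal
          (normalizedFactors (Ideal.map (algebraMap A B) (IsLocalRing.maximalIdeal A))) := by
  classical
  set 𝔪 := IsLocalRing.maximalIdeal A with h𝔪
  set 𝔭 := Ideal.map (algebraMap A B) 𝔪 with h𝔭
  set s := normalizedFactors 𝔭 with hs
  have hsprime : ∀ P ∈ s, P.IsPrime ∧ P ≠ ⊥ := fun P hP =>
    ⟨Ideal.isPrime_of_prime (prime_of_normalized_factor P hP),
      (prime_of_normalized_factor P hP).ne_zero⟩
  let s' : Multiset (HeightOneSpectrum B) := s.pmap (fun P h => ⟨P, h.1, h.2⟩) hsprime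
  have hs' : s'.map HeightOneSpectrum.asIdeal = s := by
    simp only [s', Multiset.map_pmap]
    exact (Multiset.pmap_eq_map _ (fun a => a) _ _).trans (Multiset.map_id' s)
  have hcount : ∀ P : HeightOneSpectrum B, Multiset.count P s' = Multiset.count P.asIdeal s := by
    intro P
    rw [← hs']
    exact (Multiset.count_map_eq_count' _ _ (fun P Q h => HeightOneSpectrum.ext h) _).symm
  have hcard' : Multiset.card s = Module.finrank A B := by
    rw [← hcard, ← hs', Multiset.card_map, ← Multiset.toFinset_sum_count_eq s',
      finsum_eq_sum_of_support_subset (s := s'.toFinset)]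
    · exact Finset.sum_congr rfl fun P _ => by rw [hcount, hs']
    · intro P hP
      rw [Function.mem_support] at hP
      rw [Finset.mem_coe, Multiset.mem_toFinset]
      by_contra hPs
      apply hP
      rw [hs', ← hcount, Multiset.count_eq_zero_of_notMem hPs]
  obtain ⟨L, hL⟩ : ∃ L : List (HeightOneSpectrum B), (L : Multiset _) = s' :=
    ⟨s'.toList, Multiset.coe_toList s'⟩
  let I : List (Ideal B) := L.map HeightOneSpectrum.asIdeal
  have hIs : (I : Multiset (Ideal B)) = s := by
    rw [← hs', ← hL]; rfl
  have hIprod : I.prod = 𝔭 := by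
    rw [← Multiset.prod_coe, hIs]
    exact Ideal.prod_normalizedFactors_eq_self hp
  set N := L.length with hN
  have hIlen : I.length = N := List.length_map _
  have hNn : N = Module.finrank A B := by
    rw [← hcard', ← hIs, Multiset.coe_card, hIlen]
  let J : ℕ → Ideal B := fun l => (I.take l).prod
  have hJ0 : J 0 = ⊤ := by
    simp [J, Ideal.one_eq_top]
  have hJN : J N = 𝔭 := by
    show (I.take N).prod = 𝔭
    rw [← hIlen, List.take_length, hIprod]
  have hJsucc : ∀ l (hl : l < N), J (l + 1) = J l * (L[l]).asIdeal := by
    intro l hl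
    have hl' : l < I.length := by rw [hIlen]; exact hl
    show (I.take (l + 1)).prod = (I.take l).prod * _
    rw [List.prod_take_succ I l hl']
    simp [I]
  have hJle : ∀ l, 𝔭 ≤ J l := by
    intro l
    rw [← hIprod, ← List.prod_take_mul_prod_drop I l]
    exact Ideal.mul_le_left
  have hLle : ∀ l (hl : l < N), 𝔭 ≤ (L[l]).asIdeal := by
    intro l hl
    have hmem : (L[l]).asIdeal ∈ s := by
      rw [← hIs, Multiset.mem_coe]
      exact List.mem_map.2 ⟨L[l], List.getElem_mem hl, rfl⟩
    exact Ideal.le_of_dvd (dvd_of_mem_normalizedFactors hmem)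
  -- the linear algebra set-up
  let k := A ⧸ 𝔪
  let V := B ⧸ 𝔭
  have hfinV : Module.Finite k V := Module.Finite.of_restrictScalars_finite A _ _
  let W : ℕ → Submodule k V := fun l =>
    (Ideal.map (Ideal.Quotient.mk 𝔭) (J l)).restrictScalars k
  let M : List k := L.map fun P => Ideal.Quotient.mk 𝔪 (c P)
  have hMlen : M.length = N := List.length_map _
  let cbar : ℕ → k := fun l => if h : l < M.length then M[l] else 0
  let f : V →ₗ[k] V := Algebra.lmul k V (Ideal.Quotient.mk 𝔭 y)
  have hW0 : W 0 = ⊤ := by
    show (Ideal.map (Ideal.Quotient.mk 𝔭) (J 0)).restrictScalars k = ⊤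
    rw [hJ0, Ideal.map_top, Submodule.restrictScalars_top]
  have hWN : W N = ⊥ := by
    show (Ideal.map (Ideal.Quotient.mk 𝔭) (J N)).restrictScalars k = ⊥
    rw [hJN, Ideal.map_quotient_self, Submodule.restrictScalars_bot]
  have hanti : ∀ l, l < N → W (l + 1) ≤ W l := by
    intro l hl x hx
    have hx' : x ∈ Ideal.map (Ideal.Quotient.mk 𝔭) (J (l + 1)) := hx
    show x ∈ Ideal.map (Ideal.Quotient.mk 𝔭) (J l)
    refine Ideal.map_mono ?_ hx'
    rw [hJsucc l hl]
    exact Ideal.mul_le_left
  have hf : ∀ l, l < N → ∀ x ∈ W l, f x - cbar l • x ∈ W (l + 1) := by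
    intro l hl x hx
    have hx' : x ∈ Ideal.map (Ideal.Quotient.mk 𝔭) (J l) := hx
    obtain ⟨j, hj, rfl⟩ := (Ideal.mem_map_iff_of_surjective _ Ideal.Quotient.mk_surjective).1 hx'
    have hcb : cbar l = Ideal.Quotient.mk 𝔪 (c L[l]) := by
      have hl' : l < M.length := by rw [hMlen]; exact hl
      simp only [cbar, dif_pos hl']
      simp [M]
    have hcalc : f (Ideal.Quotient.mk 𝔭 j) - cbar l • (Ideal.Quotient.mk 𝔭 j) =
        Ideal.Quotient.mk 𝔭 ((y - algebraMap A B (c L[l])) * j) := by
      rw [hcb, Ideal.Quotient.mk_smul_mk_quotient_map_quotient]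
      show (Ideal.Quotient.mk 𝔭 y) * (Ideal.Quotient.mk 𝔭 j) - _ = _
      rw [← map_mul, ← map_sub, ← sub_mul]
    rw [hcalc]
    show _ ∈ Ideal.map (Ideal.Quotient.mk 𝔭) (J (l + 1))
    apply Ideal.mem_map_of_mem
    rw [hJsucc l hl, mul_comm (J l)]
    exact Ideal.mul_mem_mul (hc L[l] (hLle l hl)) hj
  have hdet := det_of_flag N V f W cbar hW0 hWN hanti hf
  -- dimension count
  have hstrict : ∀ l, l < N → Module.finrank k (W (l + 1)) < Module.finrank k (W l) := by
    intro l hl
    apply Submodule.finrank_lt_finrank_of_lt
    refine lt_of_le_of_ne (hanti l hl) fun heq => ?_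
    have h1 : Ideal.map (Ideal.Quotient.mk 𝔭) (J (l + 1)) =
        Ideal.map (Ideal.Quotient.mk 𝔭) (J l) :=
      Submodule.restrictScalars_injective k V V heq
    have h2 := congrArg (Ideal.comap (Ideal.Quotient.mk 𝔭)) h1
    rw [Ideal.comap_map_of_surjective _ Ideal.Quotient.mk_surjective,
      Ideal.comap_map_of_surjective _ Ideal.Quotient.mk_surjective,
      ← RingHom.ker_eq_comap_bot, Ideal.mk_ker, sup_eq_left.2 (hJle _),
      sup_eq_left.2 (hJle _), hJsucc l hl] at h2
    have hJl0 : J l ≠ 0 := by
      intro h0
      have := hJle l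
      rw [h0, Ideal.zero_eq_bot, le_bot_iff] at this
      exact hp this
    rcases mul_right_eq_self₀.1 h2 with h3 | h3
    · exact (L[l]).isPrime.ne_top (by rw [h3, Ideal.one_eq_top])
    · exact hJl0 h3
  have hg0 : Module.finrank k (W 0) = N := by
    rw [hW0, finrank_top, hNn]
    exact IsLocalRing.finrank_quotient_map
  have hgN : Module.finrank k (W N) = 0 := by
    rw [hWN, finrank_bot]
  have hsum : ∀ m, m ≤ N → ∑ l ∈ Finset.range m,
      (Module.finrank k (W l) - Module.finrank k (W (l + 1))) + Module.finrank k (W m) =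
        Module.finrank k (W 0) := by
    intro m hm
    induction m with
    | zero => simp
    | succ m ih =>
      have h1 := ih (by omega)
      have h2 := hstrict m (by omega)
      rw [Finset.sum_range_succ]
      omega
  have hone : ∀ l ∈ Finset.range N,
      1 = Module.finrank k (W l) - Module.finrank k (W (l + 1)) := by
    refine (Finset.sum_eq_sum_iff_of_le fun l hl => ?_).1 ?_
    · have := hstrict l (Finset.mem_range.1 hl)
      omega
    · have h1 := hsum N le_rfl
      rw [hgN, hg0, add_zero] at h1
      rw [h1]
      simp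
  have hrange : ∏ l ∈ Finset.range M.length, cbar l = M.prod := by
    rw [← Fin.prod_univ_getElem M, Finset.prod_range]
    refine Finset.prod_congr rfl fun i _ => ?_
    simp only [cbar, dif_pos i.2]
  have hdet' : LinearMap.det f = M.prod := by
    rw [hdet, ← hrange, hMlen]
    refine Finset.prod_congr rfl fun l hl => ?_
    rw [← hone l hl, pow_one]
  -- assemble
  rw [← norm_quotient_mk, Algebra.norm_apply]
  show LinearMap.det f = _
  rw [hdet']
  have hM : (M : Multiset k) = s'.map fun P => Ideal.Quotient.mk 𝔪 (c P) := by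
    rw [← hL]; rfl
  rw [← Multiset.prod_coe, hM, Finset.prod_multiset_map_count]
  rw [finprod_eq_prod_of_mulSupport_subset (s := s'.toFinset)]
  · exact Finset.prod_congr rfl fun P _ => by rw [hcount]
  · intro P hP
    rw [Function.mem_mulSupport] at hP
    rw [Finset.mem_coe, Multiset.mem_toFinset]
    by_contra hPs
    apply hP
    rw [← hcount, Multiset.count_eq_zero_of_notMem hPs, pow_zero]

end Main

end Fermat.Agent.Lib.FFNorm
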