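/-
Value formula for the norm in a finite extension `F'/F` of function fields over an
algebraically closed field `K` of characteristic zero:
  `(N_{F'/F} y)(v) = ∏_{w | v} y(w) ^ e_w`
for `y` regular at all places `w` over the place `v` of `F`.  "Values" are expressed without any
auxiliary definition: `y(w) = c` means `y - c` lies in the maximal ideal of `w`, written
`w.toValuationSubring.valuation (y - c) < 1`.
-/
import Mathlib
import Fermat.Agent.Lib.FFNorm.Places
import Fermat.Agent.Lib.FFNorm.Along
import Fermat.Agent.Lib.FFNorm.ValueCore

set_option autoImplicit false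
set_option linter.unusedSectionVars false
set_option linter.style.haveILetI false

namespace Fermat.Agent.Lib.FFNorm

open AlgebraicCurve IsDedekindDomain WithZero UniqueFactorizationMonoid

variable {K F F' : Type*} [Field K] [Field F] [Field F'] [Algebra K F] [Algebra K F']
  [Algebra F F'] [IsScalarTower K F F'] [FiniteDimensional F F'] [CharZero F]

attribute [local instance] isScalarTower_val isDedekindDomain_intClosure isFractionRing_intClosure

open Classical in
/-- The multiplicity of a prime `P` of the integral closure of `O_v` in the factorisation of
`𝔪_v` is the ramification index of the corresponding place. -/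
theorem count_eq_ramificationIndex (v : Place K F)
    (P : HeightOneSpectrum (intClosure (F' := F') v)) :
    Multiset.count P.asIdeal (normalizedFactors
      (Ideal.map (algebraMap v.toValuationSubring (intClosure (F' := F') v))
        (IsLocalRing.maximalIdeal v.toValuationSubring))) =
      (placeOver v P).ramificationIndex F := by
  classical
  obtain ⟨π, hπ⟩ := IsDiscreteValuationRing.exists_irreducible v.toValuationSubring
  have h𝔪 : IsLocalRing.maximalIdeal v.toValuationSubring = Ideal.span {π} :=
    (IsDiscreteValuationRing.irreducible_iff_uniformizer _).1 hπ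
  have hmap : Ideal.map (algebraMap v.toValuationSubring (intClosure (F' := F') v))
      (IsLocalRing.maximalIdeal v.toValuationSubring) =
      Ideal.span {algebraMap v.toValuationSubring (intClosure (F' := F') v) π} := by
    rw [h𝔪, Ideal.map_span, Set.image_singleton]
  have hπ1 : v.ord (π : F) = 1 := v.ord_coe_irreducible hπ
  have hπ0 : (π : F) ≠ 0 := by
    simpa [ne_eq, ZeroMemClass.coe_eq_zero] using hπ.ne_zero
  have hπ0' : algebraMap F F' (π : F) ≠ 0 := by simpa using hπ0
  have hb0 : algebraMap v.toValuationSubring (intClosure (F' := F') v) π ≠ 0 := by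
    intro h
    apply hπ0'
    have h1 : algebraMap F F' (π : F) = algebraMap (intClosure (F' := F') v) F'
        (algebraMap v.toValuationSubring (intClosure (F' := F') v) π) := rfl
    rw [h1, h, map_zero]
  have h1 := (placeOver v P).ord_restrict (F := F) (π : F)
  rw [restrict_placeOver, hπ1, mul_one] at h1
  have h2 := ord_placeOver v P hπ0'
  have h3 := neg_log_valuation_eq_count (intClosure (F' := F') v) F' P
    (algebraMap v.toValuationSubring (intClosure (F' := F') v) π) hb0
  have h4 : algebraMap F F' (π : F) = algebraMap (intClosure (F' := F') v) F'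
      (algebraMap v.toValuationSubring (intClosure (F' := F') v) π) := rfl
  rw [h4] at h1 h2
  rw [h2, h3] at h1
  have hI0 : Ideal.span {algebraMap v.toValuationSubring (intClosure (F' := F') v) π} ≠ 0 := by
    rw [Ideal.zero_eq_bot, Ne, Ideal.span_singleton_eq_bot]
    exact hb0
  have h5 := Ideal.count_associates_factors_eq hI0 P.isPrime P.ne_bot
  rw [hmap]
  have h6 : ((Multiset.count P.asIdeal (normalizedFactors
      (Ideal.span {algebraMap v.toValuationSubring (intClosure (F' := F') v) π})) : ℕ) : ℤ) =
      ((placeOver v P).ramificationIndex F : ℤ) := by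
    rw [← h1]
    congr 1
    convert h5.symm
  exact_mod_cast h6

section AlgClosed

variable [IsAlgClosed K] [HasPrincipalDivisors K F']

/-- `∑_{w | v} e_w = [F' : F]` (algebraically closed constants). -/
theorem sum_ramificationIndex_fiber (v : Place K F)
    (hres : ∀ a : v.toValuationSubring, ∃ c : K,
      a - algebraMap K v.toValuationSubring c ∈ IsLocalRing.maximalIdeal v.toValuationSubring) :
    ∑ w ∈ v.fiber F', w.ramificationIndex F = Module.finrank F F' := by
  obtain ⟨π, hπ⟩ := IsDiscreteValuationRing.exists_irreducible v.toValuationSubring
  have hπ1 : v.ord (π : F) = 1 := v.ord_coe_irreducible hπ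
  have hπ0 : (π : F) ≠ 0 := by
    simpa [ne_eq, ZeroMemClass.coe_eq_zero] using hπ.ne_zero
  have hπ0' : algebraMap F F' (π : F) ≠ 0 := by simpa using hπ0
  have h := ord_norm_eq_sum_fiber v hres (algebraMap F F' (π : F)) hπ0'
  rw [Algebra.norm_algebraMap, ← zpow_natCast, v.ord_zpow, hπ1, mul_one] at h
  have h2 : ∑ w ∈ v.fiber F', w.ord (algebraMap F F' (π : F)) =
      ∑ w ∈ v.fiber F', (w.ramificationIndex F : ℤ) := by
    refine Finset.sum_congr rfl fun w hw => ?_
    rw [w.ord_restrict, Place.mem_fiber.mp hw, hπ1, mul_one]
  rw [h2] at h
  exact_mod_cast h.symm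

/-- **Value formula for the norm**: if `y ≡ c w` modulo the maximal ideal of `w` for every place
`w` of `F'` over `v`, then `N_{F'/F} y ≡ ∏_{w | v} (c w) ^ e_w` modulo the maximal ideal
of `v`. -/
theorem valuation_norm_sub_prod_lt_one (v : Place K F)
    (hres : ∀ a : v.toValuationSubring, ∃ c : K,
      a - algebraMap K v.toValuationSubring c ∈ IsLocalRing.maximalIdeal v.toValuationSubring)
    (y : F') (c : Place K F' → K)
    (hc : ∀ w ∈ v.fiber F', w.toValuationSubring.valuation (y - algebraMap K F' (c w)) < 1) :
    v.toValuationSubring.valuation
      (Algebra.norm F y - algebraMap K F (∏ w ∈ v.fiber F', c w ^ w.ramificationIndex F)) < 1 := by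
  classical
  have hfinite := finite_heightOneSpectrum_intClosure (F' := F') v
  have hfin : Module.Finite v.toValuationSubring (intClosure (F' := F') v) :=
    IsIntegralClosure.finite v.toValuationSubring F F' _
  have htf : Module.IsTorsionFree v.toValuationSubring (intClosure (F' := F') v) :=
    isTorsionFree_core v.toValuationSubring F (intClosure (F' := F') v) F'
  have hfree : Module.Free v.toValuationSubring (intClosure (F' := F') v) := inferInstance
  have hinj : Function.Injective
      (algebraMap v.toValuationSubring (intClosure (F' := F') v)) :=
    algebraMap_injective_core v.toValuationSubring F (intClosure (F' := F') v) F'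
  -- `y` is integral over `O_v`
  have hyw : ∀ P : HeightOneSpectrum (intClosure (F' := F') v),
      (placeOver v P).toValuationSubring.valuation
        (y - algebraMap K F' (c (placeOver v P))) < 1 := fun P =>
    hc _ (Place.mem_fiber.mpr (restrict_placeOver v P))
  have hyval : ∀ P : HeightOneSpectrum (intClosure (F' := F') v), P.valuation F' y ≤ 1 := by
    intro P
    have h1 : y - algebraMap K F' (c (placeOver v P)) ∈ (placeOver v P).toValuationSubring :=
      (ValuationSubring.valuation_le_one_iff _ _).1 (hyw P).le
    have h2 : algebraMap K F' (c (placeOver v P)) ∈ (placeOver v P).toValuationSubring :=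
      (placeOver v P).algebraMap_mem' _
    have h3 : y ∈ (placeOver v P).toValuationSubring := by
      have := add_mem h1 h2
      rwa [sub_add_cancel] at this
    rw [placeOver_toValuationSubring, Valuation.mem_valuationSubring_iff] at h3
    exact h3
  obtain ⟨yB, hyB⟩ := HeightOneSpectrum.mem_integers_of_valuation_le_one F' y hyval
  -- the values, as elements of `O_v`
  let cA : HeightOneSpectrum (intClosure (F' := F') v) → v.toValuationSubring := fun P =>
    algebraMap K v.toValuationSubring (c (placeOver v P))
  have hcB : ∀ P : HeightOneSpectrum (intClosure (F' := F') v),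
      Ideal.map (algebraMap v.toValuationSubring (intClosure (F' := F') v))
        (IsLocalRing.maximalIdeal v.toValuationSubring) ≤ P.asIdeal →
      yB - algebraMap v.toValuationSubring (intClosure (F' := F') v) (cA P) ∈ P.asIdeal := by
    intro P _
    refine (HeightOneSpectrum.valuation_lt_one_iff_mem (K := F') P _).1 ?_
    have h1 : algebraMap (intClosure (F' := F') v) F'
        (yB - algebraMap v.toValuationSubring (intClosure (F' := F') v) (cA P)) =
        y - algebraMap K F' (c (placeOver v P)) := by
      rw [map_sub, hyB]
      congr 1
      show algebraMap F F' ((algebraMap K v.toValuationSubring (c (placeOver v P)) :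
        v.toValuationSubring) : F) = _
      rw [v.coe_algebraMap, ← IsScalarTower.algebraMap_apply]
    change P.valuation F' (algebraMap (intClosure (F' := F') v) F'
        (yB - algebraMap v.toValuationSubring (intClosure (F' := F') v) (cA P))) < 1
    rw [h1]
    have h2 := hyw P
    rw [placeOver_toValuationSubring] at h2
    exact (Valuation.isEquiv_valuation_valuationSubring (P.valuation F')).lt_one_iff_lt_one.2 h2
  have hp : Ideal.map (algebraMap v.toValuationSubring (intClosure (F' := F') v))
      (IsLocalRing.maximalIdeal v.toValuationSubring) ≠ ⊥ := by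
    rw [Ne, Ideal.map_eq_bot_iff_of_injective hinj]
    exact IsDiscreteValuationRing.not_a_field v.toValuationSubring
  have hinj' : Function.Injective (algebraMap v.toValuationSubring F') := by
    rw [IsScalarTower.algebraMap_eq v.toValuationSubring F F']
    exact (algebraMap F F').injective.comp (IsFractionRing.injective v.toValuationSubring F)
  have hfs : FaithfulSMul v.toValuationSubring F' :=
    (faithfulSMul_iff_algebraMap_injective v.toValuationSubring F').mpr hinj'
  have htf' : Module.IsTorsionFree v.toValuationSubring F' := inferInstance
  have hrank : Module.finrank v.toValuationSubring (intClosure (F' := F') v) =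
      Module.finrank F F' :=
    IsIntegralClosure.rank v.toValuationSubring F F' (intClosure (F' := F') v)
  have hset : (↑(v.fiber F') : Set (Place K F')) = Set.range (placeOver (K := K) (F' := F') v) := by
    rw [range_placeOver]
    ext w'
    simp [Place.mem_fiber]
  have hcard : ∑ᶠ P : HeightOneSpectrum (intClosure (F' := F') v), Multiset.count P.asIdeal
      (normalizedFactors (Ideal.map (algebraMap v.toValuationSubring (intClosure (F' := F') v))
        (IsLocalRing.maximalIdeal v.toValuationSubring))) =
      Module.finrank v.toValuationSubring (intClosure (F' := F') v) := by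
    rw [hrank, ← sum_ramificationIndex_fiber v hres, ← finsum_mem_coe_finset, hset,
      finsum_mem_range (placeOver_injective v)]
    exact finsum_congr fun P => count_eq_ramificationIndex v P
  have hmain := quotient_mk_norm_eq_finprod hp hcard yB cA hcB
  -- the norm of `y` is the norm of `yB`
  have hnorm : Algebra.norm F y =
      ((Algebra.norm v.toValuationSubring yB : v.toValuationSubring) : F) := by
    rw [← hyB, ← Algebra.algebraMap_intNorm (A := v.toValuationSubring) (K := F) (L := F')
      (B := intClosure (F' := F') v), Algebra.intNorm_eq_norm]
    rfl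
  have hprod : ∏ᶠ P : HeightOneSpectrum (intClosure (F' := F') v),
      Ideal.Quotient.mk (IsLocalRing.maximalIdeal v.toValuationSubring) (cA P) ^
        Multiset.count P.asIdeal (normalizedFactors
          (Ideal.map (algebraMap v.toValuationSubring (intClosure (F' := F') v))
            (IsLocalRing.maximalIdeal v.toValuationSubring))) =
      Ideal.Quotient.mk (IsLocalRing.maximalIdeal v.toValuationSubring)
        (algebraMap K v.toValuationSubring (∏ w ∈ v.fiber F', c w ^ w.ramificationIndex F)) := by
    rw [map_prod, map_prod, ← finprod_mem_coe_finset, hset,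
      finprod_mem_range (placeOver_injective v)]
    refine finprod_congr fun P => ?_
    rw [count_eq_ramificationIndex v P, map_pow, map_pow]
  rw [hprod, Ideal.Quotient.eq] at hmain
  have hval := (ValuationSubring.valuation_lt_one_iff v.toValuationSubring _).1 hmain
  rw [hnorm, ← v.coe_algebraMap]
  exact hval

/-- Value formula for the norm of `x₀ - y`, `x₀` a constant (so: the characteristic polynomial
of `y`, evaluated at every constant, reduces to `∏_{w | v} (x₀ - y(w)) ^ e_w`). -/
theorem valuation_norm_const_sub_sub_prod_lt_one (v : Place K F)
    (hres : ∀ a : v.toValuationSubring, ∃ c : K,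
      a - algebraMap K v.toValuationSubring c ∈ IsLocalRing.maximalIdeal v.toValuationSubring)
    (y : F') (c : Place K F' → K)
    (hc : ∀ w ∈ v.fiber F', w.toValuationSubring.valuation (y - algebraMap K F' (c w)) < 1)
    (x₀ : K) :
    v.toValuationSubring.valuation
      (Algebra.norm F (algebraMap K F' x₀ - y) -
        algebraMap K F (∏ w ∈ v.fiber F', (x₀ - c w) ^ w.ramificationIndex F)) < 1 := by
  refine valuation_norm_sub_prod_lt_one v hres (algebraMap K F' x₀ - y) (fun w => x₀ - c w)
    fun w hw => ?_
  have h := hc w hw
  have h1 : algebraMap K F' x₀ - y - algebraMap K F' (x₀ - c w) =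
      -(y - algebraMap K F' (c w)) := by
    rw [map_sub]; ring
  rw [h1, Valuation.map_neg]
  exact h

end AlgClosed

section Along

variable {K F F' : Type*} [Field K] [Field F] [Field F'] [Algebra K F] [Algebra K F']
  [IsAlgClosed K] [CharZero K] [Algebra.EssFiniteType K F'] [HasPrincipalDivisors K F']

/-- **Value formula for the norm** along an embedding `φ : F → F'` of function fields of curves
over an algebraically closed field of characteristic zero. -/
theorem valuation_norm_sub_prod_lt_one_along (φ : F →ₐ[K] F') (hφ : φ.toRingHom.IsIntegral)
    (htr : Algebra.trdeg K F = 1) (htr' : Algebra.trdeg K F' = 1) (v : Place K F)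
    (y : F') (c : Place K F' → K)
    (hc : ∀ w ∈ Place.fiberAlong φ hφ v,
      w.toValuationSubring.valuation (y - algebraMap K F' (c w)) < 1) :
    letI := algebraAlong φ
    v.toValuationSubring.valuation
      (Algebra.norm F y - algebraMap K F
        (∏ w ∈ Place.fiberAlong φ hφ v, c w ^ w.ramificationIndexAlong φ)) < 1 := by
  letI := algebraAlong φ
  haveI := isScalarTower_along φ
  haveI := isIntegral_along φ hφ
  haveI : Module.Finite F F' := finite_of_trdeg htr htr'
  haveI : CharZero F := charZero_of_injective_algebraMap (algebraMap K F).injective
  exact valuation_norm_sub_prod_lt_one v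
    (fun a => Fermat.Agent.S24.FF.exists_residue_sub_mem htr v a) y c hc

/-- Along-form of `valuation_norm_const_sub_sub_prod_lt_one`. -/
theorem valuation_norm_const_sub_sub_prod_lt_one_along (φ : F →ₐ[K] F')
    (hφ : φ.toRingHom.IsIntegral)
    (htr : Algebra.trdeg K F = 1) (htr' : Algebra.trdeg K F' = 1) (v : Place K F)
    (y : F') (c : Place K F' → K)
    (hc : ∀ w ∈ Place.fiberAlong φ hφ v,
      w.toValuationSubring.valuation (y - algebraMap K F' (c w)) < 1) (x₀ : K) :
    letI := algebraAlong φ
    v.toValuationSubring.valuation
      (Algebra.norm F (algebraMap K F' x₀ - y) - algebraMap K F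
        (∏ w ∈ Place.fiberAlong φ hφ v, (x₀ - c w) ^ w.ramificationIndexAlong φ)) < 1 := by
  letI := algebraAlong φ
  haveI := isScalarTower_along φ
  haveI := isIntegral_along φ hφ
  haveI : Module.Finite F F' := finite_of_trdeg htr htr'
  haveI : CharZero F := charZero_of_injective_algebraMap (algebraMap K F).injective
  exact valuation_norm_const_sub_sub_prod_lt_one v
    (fun a => Fermat.Agent.S24.FF.exists_residue_sub_mem htr v a) y c hc x₀

/-- `∑_{w | v} e_w = [F' : F]` along `φ`. -/
theorem sum_ramificationIndexAlong_fiberAlong (φ : F →ₐ[K] F') (hφ : φ.toRingHom.IsIntegral)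
    (htr : Algebra.trdeg K F = 1) (htr' : Algebra.trdeg K F' = 1) (v : Place K F) :
    ∑ w ∈ Place.fiberAlong φ hφ v, w.ramificationIndexAlong φ = finrankAlong K φ := by
  letI := algebraAlong φ
  haveI := isScalarTower_along φ
  haveI := isIntegral_along φ hφ
  haveI : Module.Finite F F' := finite_of_trdeg htr htr'
  haveI : CharZero F := charZero_of_injective_algebraMap (algebraMap K F).injective
  exact sum_ramificationIndex_fiber v
    (fun a => Fermat.Agent.S24.FF.exists_residue_sub_mem htr v a)

end Along

end Fermat.Agent.Lib.FFNorm
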